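import Mathlib
import Fermat.Agent.LT.T7.P51.GlobProdSpec
import Fermat.Agent.LT.T7.H756.LsumDbl
import Fermat.Agent.LT.T7.H311.EkProdInv
import Fermat.Agent.LT.T7.H557.DescTriv
import Fermat.Agent.LT.T7.H29.UpCore

/-!
# Row LT, tower T7, node T7.L2.1.H2b.G1 `OpAvgC51` (helper526, registry row 2881): tools

OFF-MAIN.  Complete proofs, nothing assumed.  ADDITIVE (all names end in `526`).

* the algebra of pure tensors at one place (`exists_rest526`, `ltr_pure526`, `iwL_pure526`,
  `regL_pure526`), left invariance of a pure tensor (`pure_left_inv526`);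
* the local invariance of the regular Iwahori function (`regLoc_left_inv526`);
* test functions without the left invariance (`IsPreT526`) and their left translates;
* families with an average (`IsFam526`) and their left translates.
-/

set_option autoImplicit false
set_option linter.unusedSectionVars false
set_option linter.unusedVariables false

open IsDedekindDomain NumberField MeasureTheory

noncomputable section

namespace Fermat.Agent.LT.T7.H526

open Fermat.Agent.LT.H556 Fermat.Agent.LT.H556.A0 Fermat.Agent.LT.T7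
open Fermat.Agent.LT.T7.H305 Fermat.Agent.LT.T7.H893 Fermat.Agent.LT.T7.P51 Fermat.Agent.LT.H129
open Fermat.Agent.LT

attribute [local instance] Fermat.Agent.LT.T5.instMeasurableSpaceG

variable {K : Type} [Field K] [NumberField K]

/-! ## 1. Components of local elements -/

theorem finGL_of_local526 {w v : HeightOneSpectrum (𝓞 K)} {b : G K} (hb : IsLocalAtFin w b)
    (hv : v ≠ w) : finGL305 v b = 1 :=
  (H756.trivAtFin_iff_finGL756 v b).1 (hb.2 v hv)

theorem infGL_of_local526 {w : HeightOneSpectrum (𝓞 K)} {b : G K} (hb : IsLocalAtFin w b)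
    (w' : InfinitePlace K) : infGL305 w' b = 1 :=
  (H756.trivAtInf_iff_infGL756 w' b).1 (hb.1 w')

theorem isLocalAtFin_zpow526 {w : HeightOneSpectrum (𝓞 K)} {z : G K} (hz : IsLocalAtFin w z)
    (k : ℤ) : IsLocalAtFin w (z ^ k) := by
  rw [isLocalAtFin_iff129] at hz ⊢
  refine ⟨fun u => ?_, fun v hv => ?_⟩
  · rw [map_zpow, hz.1 u, one_zpow]
  · rw [map_zpow, hz.2 v hv, one_zpow]

/-! ## 2. The algebra of pure tensors at one place -/

/-- The value of a pure tensor is the value of the component at `w ∈ T` times a factor which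
does not depend on this component and is invariant under the left translations by elements
supported at `w`. -/
theorem exists_rest526 [DecidableEq (HeightOneSpectrum (𝓞 K))]
    (T : Finset (HeightOneSpectrum (𝓞 K))) (w : HeightOneSpectrum (𝓞 K)) (hw : w ∈ T)
    (f₀ : ∀ v : HeightOneSpectrum (𝓞 K), GL (Fin 2) (v.adicCompletion K) → ℂ)
    (F : InfinitePlace K → GL (Fin 2) ℂ → ℂ) :
    ∃ R : G K → ℂ,
      (∀ (ψ : GL (Fin 2) (w.adicCompletion K) → ℂ) (y : G K),
        pure305 T (Function.update f₀ w ψ) F y = ψ (finGL305 w y) * R y) ∧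
      ∀ b : G K, IsLocalAtFin w b → ∀ y : G K, R (b⁻¹ * y) = R y := by
  classical
  refine ⟨fun y => if OutT305 T y then
      (∏ v ∈ T.erase w, f₀ v (finGL305 v y)) * ∏ w' : InfinitePlace K, F w' (infGL305 w' y)
    else 0, ?_, ?_⟩
  · intro ψ y
    show (if OutT305 T y then
        (∏ v ∈ T, Function.update f₀ w ψ v (finGL305 v y))
          * ∏ w' : InfinitePlace K, F w' (infGL305 w' y) else 0) = _
    by_cases hy : OutT305 T y
    · simp only [if_pos hy]
      rw [← Finset.mul_prod_erase T _ hw, Function.update_self, mul_assoc]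
      congr 2
      refine Finset.prod_congr rfl fun v hv => ?_
      rw [Function.update_of_ne (Finset.ne_of_mem_erase hv)]
    · simp only [if_neg hy, mul_zero]
  · intro b hb y
    have hout : OutT305 T (b⁻¹ * y) ↔ OutT305 T y :=
      H756.outT_inv_mul_iff756 (fun v hv => by
        rw [finGL_of_local526 hb (fun e => hv (by rw [e]; exact hw))]
        exact T6.H777.inU_one777 0) y
    show (if OutT305 T (b⁻¹ * y) then _ else 0) = if OutT305 T y then _ else 0
    by_cases hy : OutT305 T y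
    · rw [if_pos hy, if_pos (hout.2 hy)]
      congr 1
      · refine Finset.prod_congr rfl fun v hv => ?_
        rw [map_mul, map_inv, finGL_of_local526 hb (Finset.ne_of_mem_erase hv), inv_one, one_mul]
      · refine Finset.prod_congr rfl fun w' _ => ?_
        rw [map_mul, map_inv, infGL_of_local526 hb w', inv_one, one_mul]
    · rw [if_neg hy, if_neg (fun h => hy (hout.1 h))]

/-- The left translate by an element supported at `w ∈ T`. -/
theorem ltr_pure526 [DecidableEq (HeightOneSpectrum (𝓞 K))]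
    {T : Finset (HeightOneSpectrum (𝓞 K))} {w : HeightOneSpectrum (𝓞 K)} (hw : w ∈ T)
    (f₀ : ∀ v : HeightOneSpectrum (𝓞 K), GL (Fin 2) (v.adicCompletion K) → ℂ)
    (F : InfinitePlace K → GL (Fin 2) ℂ → ℂ) (ψ : GL (Fin 2) (w.adicCompletion K) → ℂ)
    {b : G K} (hb : IsLocalAtFin w b) :
    ltr b (pure305 T (Function.update f₀ w ψ) F)
      = pure305 T (Function.update f₀ w (fun x => ψ ((finGL305 w b)⁻¹ * x))) F := by
  obtain ⟨R, hR1, hR2⟩ := exists_rest526 T w hw f₀ F
  funext y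
  show pure305 T (Function.update f₀ w ψ) F (b⁻¹ * y) = _
  rw [hR1, hR1, hR2 b hb, map_mul, map_inv]

/-- The Iwahori sum over elements supported at `w ∈ T`. -/
theorem iwL_pure526 [DecidableEq (HeightOneSpectrum (𝓞 K))]
    {T : Finset (HeightOneSpectrum (𝓞 K))} {w : HeightOneSpectrum (𝓞 K)} (hw : w ∈ T)
    (f₀ : ∀ v : HeightOneSpectrum (𝓞 K), GL (Fin 2) (v.adicCompletion K) → ℂ)
    (F : InfinitePlace K → GL (Fin 2) ℂ → ℂ) (ψ : GL (Fin 2) (w.adicCompletion K) → ℂ)
    {H : Finset (G K)} (hH : ∀ h ∈ H, IsLocalAtFin w h) :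
    iwL w H (pure305 T (Function.update f₀ w ψ) F)
      = pure305 T (Function.update f₀ w (iwLoc51 w H ψ)) F := by
  obtain ⟨R, hR1, hR2⟩ := exists_rest526 T w hw f₀ F
  funext y
  show ((Real.sqrt (Ideal.absNorm w.asIdeal : ℝ) : ℝ) : ℂ)⁻¹
      * ∑ h ∈ H, pure305 T (Function.update f₀ w ψ) F (h⁻¹ * y) = _
  rw [hR1]
  show _ = (((Real.sqrt (Ideal.absNorm w.asIdeal : ℝ) : ℝ) : ℂ)⁻¹
      * ∑ h ∈ H, ψ ((finGL305 w h)⁻¹ * finGL305 w y)) * R y
  rw [mul_assoc, Finset.sum_mul]
  congr 1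
  refine Finset.sum_congr rfl fun h hh => ?_
  rw [hR1, hR2 h (hH h hh), map_mul, map_inv]

theorem iwL_iter_pure526 [DecidableEq (HeightOneSpectrum (𝓞 K))]
    {T : Finset (HeightOneSpectrum (𝓞 K))} {w : HeightOneSpectrum (𝓞 K)} (hw : w ∈ T)
    (f₀ : ∀ v : HeightOneSpectrum (𝓞 K), GL (Fin 2) (v.adicCompletion K) → ℂ)
    (F : InfinitePlace K → GL (Fin 2) ℂ → ℂ) (ψ : GL (Fin 2) (w.adicCompletion K) → ℂ)
    {H : Finset (G K)} (hH : ∀ h ∈ H, IsLocalAtFin w h) (j : ℕ) :
    (iwL w H)^[j] (pure305 T (Function.update f₀ w ψ) F)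
      = pure305 T (Function.update f₀ w ((iwLoc51 w H)^[j] ψ)) F := by
  induction j with
  | zero => rfl
  | succ n ih =>
    rw [Function.iterate_succ_apply', Function.iterate_succ_apply', ih]
    exact iwL_pure526 hw f₀ F _ hH

/-- **The regular member of a pure tensor** is the pure tensor with the regular component. -/
theorem regL_pure526 [DecidableEq (HeightOneSpectrum (𝓞 K))]
    {T : Finset (HeightOneSpectrum (𝓞 K))} {w : HeightOneSpectrum (𝓞 K)} (hw : w ∈ T)
    (f₀ : ∀ v : HeightOneSpectrum (𝓞 K), GL (Fin 2) (v.adicCompletion K) → ℂ)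
    (F : InfinitePlace K → GL (Fin 2) ℂ → ℂ) (ψ : GL (Fin 2) (w.adicCompletion K) → ℂ)
    {H : Finset (G K)} (hH : ∀ h ∈ H, IsLocalAtFin w h) {z : G K} (hz : IsLocalAtFin w z)
    (k : ℤ) (j : ℕ) :
    regL w z H k j (pure305 T (Function.update f₀ w ψ) F)
      = pure305 T (Function.update f₀ w (regLoc51 w z H k j ψ)) F := by
  show ltr (z ^ k) ((iwL w H)^[j] (pure305 T (Function.update f₀ w ψ) F)) = _
  rw [iwL_iter_pure526 hw f₀ F ψ hH j, ltr_pure526 hw f₀ F _ (isLocalAtFin_zpow526 hz k)]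
  congr 2
  funext x
  show ((iwLoc51 w H)^[j] ψ) ((finGL305 w (z ^ k))⁻¹ * x)
    = ((iwLoc51 w H)^[j] ψ) ((finGL305 w z ^ k)⁻¹ * x)
  rw [map_zpow]

/-- The regular member of a pure tensor, the component at `w` given. -/
theorem regL_pure_of526 [DecidableEq (HeightOneSpectrum (𝓞 K))]
    {T : Finset (HeightOneSpectrum (𝓞 K))} {w : HeightOneSpectrum (𝓞 K)} (hw : w ∈ T)
    (f₀ : ∀ v : HeightOneSpectrum (𝓞 K), GL (Fin 2) (v.adicCompletion K) → ℂ)
    (F : InfinitePlace K → GL (Fin 2) ℂ → ℂ) {ψ : GL (Fin 2) (w.adicCompletion K) → ℂ}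
    (hψ : f₀ w = ψ)
    {H : Finset (G K)} (hH : ∀ h ∈ H, IsLocalAtFin w h) {z : G K} (hz : IsLocalAtFin w z)
    (k : ℤ) (j : ℕ) :
    regL w z H k j (pure305 T f₀ F)
      = pure305 T (Function.update f₀ w (regLoc51 w z H k j ψ)) F := by
  subst hψ
  have h := regL_pure526 hw f₀ F (f₀ w) hH hz k j
  rwa [Function.update_eq_self] at h

/-- **Left invariance of a pure tensor.** -/
theorem pure_left_inv526 (T : Finset (HeightOneSpectrum (𝓞 K)))
    (f₀ : ∀ v : HeightOneSpectrum (𝓞 K), GL (Fin 2) (v.adicCompletion K) → ℂ)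
    (F : InfinitePlace K → GL (Fin 2) ℂ → ℂ) (x : G K)
    (hinf : ∀ w : InfinitePlace K, infGL305 w x = 1)
    (hout : ∀ v : HeightOneSpectrum (𝓞 K), v ∉ T → T6.InU 0 (finGL305 v x))
    (hin : ∀ v ∈ T, ∀ y : GL (Fin 2) (v.adicCompletion K),
      f₀ v (finGL305 v x * y) = f₀ v y) (y : G K) :
    pure305 T f₀ F (x * y) = pure305 T f₀ F y := by
  classical
  have hout' : OutT305 T (x * y) ↔ OutT305 T y := by
    have h := H756.outT_inv_mul_iff756 (T := T) (h := x⁻¹) (fun v hv => by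
      rw [map_inv]
      exact T6.H777.inU_inv777 (hout v hv)) y
    rwa [inv_inv] at h
  show (if OutT305 T (x * y) then _ else 0) = if OutT305 T y then _ else 0
  by_cases hy : OutT305 T y
  · rw [if_pos hy, if_pos (hout'.2 hy)]
    congr 1
    · refine Finset.prod_congr rfl fun v hv => ?_
      rw [map_mul, hin v hv]
    · refine Finset.prod_congr rfl fun w' _ => ?_
      rw [map_mul, hinf w', one_mul]
  · rw [if_neg hy, if_neg (fun h => hy (hout'.1 h))]

/-! ## 3. Local facts -/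

section Local

variable {k : Type} [Field k] [Valued k T6.Γ₀]

theorem inIw_mul526 {a b : GL (Fin 2) k} (ha : InIw893 a) (hb : InIw893 b) : InIw893 (a * b) :=
  H340.isIwG340_mul (v := (Valued.v : Valuation k (WithZero (Multiplicative ℤ)))) ha hb

theorem inIw_inv526 {a : GL (Fin 2) k} (ha : InIw893 a) : InIw893 a⁻¹ :=
  H340.isIwG340_inv (v := (Valued.v : Valuation k (WithZero (Multiplicative ℤ)))) ha

/-- The Iwahori function is left invariant under the Iwahori subgroup. -/
theorem iwFn_left526 {u : GL (Fin 2) k} (hu : InIw893 u) (x : GL (Fin 2) k) :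
    (iwFn893 (u * x) : ℂ) = iwFn893 x := by
  classical
  show (if InIw893 (u * x) then (1 : ℂ) else 0) = if InIw893 x then 1 else 0
  by_cases hx : InIw893 x
  · rw [if_pos hx, if_pos (inIw_mul526 hu hx)]
  · rw [if_neg hx, if_neg]
    intro h
    apply hx
    have := inIw_mul526 (inIw_inv526 hu) h
    rwa [inv_mul_cancel_left] at this

/-- The double coset function is left invariant. -/
theorem dblFn_left526 (n : ℕ) (y : GL (Fin 2) k) {u : GL (Fin 2) k} (hu : T6.InU n u)
    (x : GL (Fin 2) k) : (dblFn893 n y (u * x) : ℂ) = dblFn893 n y x := by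
  classical
  show (if ∃ u₁ u₂ : GL (Fin 2) k, T6.InU n u₁ ∧ T6.InU n u₂ ∧ u * x = u₁ * y * u₂
      then (1 : ℂ) else 0)
    = if ∃ u₁ u₂ : GL (Fin 2) k, T6.InU n u₁ ∧ T6.InU n u₂ ∧ x = u₁ * y * u₂ then 1 else 0
  have hiff : (∃ u₁ u₂ : GL (Fin 2) k, T6.InU n u₁ ∧ T6.InU n u₂ ∧ u * x = u₁ * y * u₂)
      ↔ ∃ u₁ u₂ : GL (Fin 2) k, T6.InU n u₁ ∧ T6.InU n u₂ ∧ x = u₁ * y * u₂ := by
    constructor
    · rintro ⟨u₁, u₂, h1, h2, h3⟩
      refine ⟨u⁻¹ * u₁, u₂, T6.H777.inU_mul777 (T6.H777.inU_inv777 hu) h1, h2, ?_⟩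
      calc x = u⁻¹ * (u * x) := by group
        _ = u⁻¹ * (u₁ * y * u₂) := by rw [h3]
        _ = u⁻¹ * u₁ * y * u₂ := by group
    · rintro ⟨u₁, u₂, h1, h2, h3⟩
      refine ⟨u * u₁, u₂, T6.H777.inU_mul777 hu h1, h2, ?_⟩
      rw [h3]
      group
  by_cases hx : ∃ u₁ u₂ : GL (Fin 2) k, T6.InU n u₁ ∧ T6.InU n u₂ ∧ x = u₁ * y * u₂
  · rw [if_pos hx, if_pos (hiff.2 hx)]
  · rw [if_neg hx, if_neg (fun h => hx (hiff.1 h))]

theorem entryMax_mul_le526 {u : GL (Fin 2) k}
    (hu : ∀ i j, Valued.v ((u : Matrix (Fin 2) (Fin 2) k) i j) ≤ 1) (x : GL (Fin 2) k) :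
    T6.entryMax (u * x) ≤ T6.entryMax x := by
  show Finset.univ.sup' Finset.univ_nonempty
      (fun p : Fin 2 × Fin 2 => Valued.v (((u * x : GL (Fin 2) k) :
        Matrix (Fin 2) (Fin 2) k) p.1 p.2)) ≤ T6.entryMax x
  rw [Finset.sup'_le_iff]
  rintro ⟨i, j⟩ -
  have hle : ∀ l : Fin 2, Valued.v ((x : Matrix (Fin 2) (Fin 2) k) l j) ≤ T6.entryMax x :=
    fun l => Finset.le_sup' (fun p : Fin 2 × Fin 2 =>
      Valued.v ((x : Matrix (Fin 2) (Fin 2) k) p.1 p.2)) (Finset.mem_univ (l, j))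
  have hterm : ∀ l : Fin 2, Valued.v ((u : Matrix (Fin 2) (Fin 2) k) i l
      * (x : Matrix (Fin 2) (Fin 2) k) l j) ≤ T6.entryMax x := by
    intro l
    rw [map_mul]
    calc Valued.v ((u : Matrix (Fin 2) (Fin 2) k) i l)
          * Valued.v ((x : Matrix (Fin 2) (Fin 2) k) l j)
        ≤ 1 * Valued.v ((x : Matrix (Fin 2) (Fin 2) k) l j) := mul_le_mul' (hu i l) le_rfl
      _ = Valued.v ((x : Matrix (Fin 2) (Fin 2) k) l j) := one_mul _
      _ ≤ T6.entryMax x := hle l
  show Valued.v (((u * x : GL (Fin 2) k) : Matrix (Fin 2) (Fin 2) k) i j) ≤ T6.entryMax x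
  rw [Matrix.GeneralLinearGroup.coe_mul, Matrix.mul_apply, Fin.sum_univ_two]
  exact le_trans (Valuation.map_add _ _ _) (max_le (hterm 0) (hterm 1))

/-- The Cartan invariant is left invariant under `GL₂(𝒪)`. -/
theorem cartan_left526 {u : GL (Fin 2) k} (hu : T6.InU 0 u) (x : GL (Fin 2) k) :
    T6.cartan (u * x) = T6.cartan x := by
  have e1 : (WithZero.exp (-((0 : ℕ) : ℤ)) : WithZero (Multiplicative ℤ)) = 1 := by simp
  have h1 : ∀ i j, Valued.v ((u : Matrix (Fin 2) (Fin 2) k) i j) ≤ 1 := fun i j => by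
    have := T6.H777.small_of_inU777 hu i j
    rwa [e1] at this
  have h2 : ∀ i j, Valued.v (((u⁻¹ : GL (Fin 2) k) : Matrix (Fin 2) (Fin 2) k) i j) ≤ 1 :=
    fun i j => by
      have := T6.H777.small_inv_of_inU777 hu i j
      rwa [e1] at this
  have hmax : T6.entryMax (u * x) = T6.entryMax x := by
    refine le_antisymm (entryMax_mul_le526 h1 x) ?_
    have := entryMax_mul_le526 h2 (u * x)
    rwa [inv_mul_cancel_left] at this
  have hdet : Valued.v ((u * x : GL (Fin 2) k) : Matrix (Fin 2) (Fin 2) k).det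
      = Valued.v (x : Matrix (Fin 2) (Fin 2) k).det := by
    rw [Matrix.GeneralLinearGroup.coe_mul, Matrix.det_mul, map_mul,
      H340.val_det_eq_one340 (v := (Valued.v : Valuation k (WithZero (Multiplicative ℤ)))) h1 h2,
      one_mul]
  show (WithZero.log (T6.entryMax (u * x))
      - WithZero.log (Valued.v ((u * x : GL (Fin 2) k) : Matrix (Fin 2) (Fin 2) k).det),
    - WithZero.log (T6.entryMax (u * x)))
    = (WithZero.log (T6.entryMax x) - WithZero.log (Valued.v (x : Matrix (Fin 2) (Fin 2) k).det),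
      - WithZero.log (T6.entryMax x))
  rw [hmax, hdet]

/-- A spherical function is left invariant under `GL₂(𝒪)`. -/
theorem sph_left526 {φ : GL (Fin 2) k → ℂ} {A : (ℤ × ℤ) →₀ ℂ} (h : IsSphFn893 φ A)
    {u : GL (Fin 2) k} (hu : T6.InU 0 u) (x : GL (Fin 2) k) : φ (u * x) = φ x := by
  rw [h.2 (u * x), h.2 x, cartan_left526 hu]

end Local

/-- At a place dividing the level the local level group is contained in the Iwahori subgroup. -/
theorem inIw_of_inU526 {𝔑 : Ideal (𝓞 K)} {n : HeightOneSpectrum (𝓞 K) → ℕ}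
    (hlev : IsLevelOf893 𝔑 n) {w : HeightOneSpectrum (𝓞 K)} (hw : w.asIdeal ∣ 𝔑)
    {u : GL (Fin 2) (w.adicCompletion K)} (hu : T6.InU (n w) u) : InIw893 u := by
  have h1 : ∀ i j, Valued.v (((u : Matrix (Fin 2) (Fin 2) (w.adicCompletion K)) - 1) i j) < 1 :=
    fun i j => H311.val_lt_one_of_mem311 hw ((hlev w _).2 (hu i j).1)
  have h2 : ∀ i j, Valued.v ((((u⁻¹ : GL (Fin 2) (w.adicCompletion K)) :
      Matrix (Fin 2) (Fin 2) (w.adicCompletion K)) - 1) i j) < 1 :=
    fun i j => H311.val_lt_one_of_mem311 hw ((hlev w _).2 (hu i j).2)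
  refine ⟨fun i j => H311.val_le_one_of_sub_one311 h1 i j,
    fun i j => H311.val_le_one_of_sub_one311 h2 i j, ?_⟩
  have := h1 1 0
  simpa using this

/-- The components of an element of a level group are in `GL₂(𝒪_v)`. -/
theorem inU_zero_of_level526 {𝔑 : Ideal (𝓞 K)} {x : G K} (hx : InLevelGroup 𝔑 x)
    (v : HeightOneSpectrum (𝓞 K)) : T6.InU 0 (finGL305 v x) := by
  have e1 : (WithZero.exp (-((0 : ℕ) : ℤ)) : WithZero (Multiplicative ℤ)) = 1 := by simp
  intro i j
  rw [e1]
  refine ⟨?_, ?_⟩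
  · have := T2.H724.val_le_one_of_mem_idealClosure724 v 𝔑 (hx.2 v i j).1
    rwa [Matrix.sub_apply, ← H756.coe_finGL756] at this
  · have := T2.H724.val_le_one_of_mem_idealClosure724 v 𝔑 (hx.2 v i j).2
    rwa [Matrix.sub_apply, ← H756.coe_finGL_inv756] at this

theorem inLevelGroup_mono526 {𝔑 𝔑₀ : Ideal (𝓞 K)} (h : 𝔑 ≤ 𝔑₀) {x : G K}
    (hx : InLevelGroup 𝔑 x) : InLevelGroup 𝔑₀ x := by
  have hsub : ∀ v : HeightOneSpectrum (𝓞 K), idealClosure 𝔑 v ⊆ idealClosure 𝔑₀ v :=
    fun v => closure_mono (Set.image_mono h)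
  exact ⟨hx.1, fun v i j => ⟨hsub v (hx.2 v i j).1, hsub v (hx.2 v i j).2⟩⟩

/-! ## 4. The regular Iwahori function is left invariant under the Iwahori subgroup -/

/-- **The regular Iwahori function is left invariant under the Iwahori subgroup**: the global
statement of helper311 for the pure tensor with the only component `1_I` at `w`, evaluated at
the elements supported at `w`. -/
theorem regLoc_left_inv526 {w : HeightOneSpectrum (𝓞 K)} {H : Finset (G K)}
    (hH : IsIwCosetSystem w H) {z : G K} (hz : IsScalarUniformizerAt w z) (k : ℤ) (j : ℕ)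
    {u₀ : GL (Fin 2) (w.adicCompletion K)} (hu₀ : InIw893 u₀)
    (x : GL (Fin 2) (w.adicCompletion K)) :
    regLoc51 w z H k j iwFn893 (u₀ * x) = regLoc51 w z H k j iwFn893 x := by
  classical
  let f₁ : ∀ v : HeightOneSpectrum (𝓞 K), GL (Fin 2) (v.adicCompletion K) → ℂ :=
    fun _ => iwFn893
  let F₁ : InfinitePlace K → GL (Fin 2) ℂ → ℂ := fun _ _ => 1
  have hww : w ∈ ({w} : Finset (HeightOneSpectrum (𝓞 K))) := Finset.mem_singleton_self w
  have hiwG : ∀ h : G K, T5.InIwahori w h → InIw893 (finGL305 w h) := by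
    intro h hh
    rw [H756.finGL_eq_finCompHom756]
    exact (H340.inIwahori_iff340 w h).1 hh
  have hinv0 : H311.IsLInv311 w.asIdeal w (pure305 {w} f₁ F₁) := by
    refine ⟨fun g₀ hg₀ y => ?_, fun h hl hI y => ?_⟩
    · refine pure_left_inv526 {w} f₁ F₁ g₀
        (fun w' => (H756.trivAtInf_iff_infGL756 w' g₀).1 (hg₀.1 w'))
        (fun v _ => inU_zero_of_level526 hg₀ v) (fun v hv y' => ?_) y
      obtain rfl : v = w := Finset.mem_singleton.1 hv
      exact iwFn_left526 (hiwG g₀ (H311.inIwahori_of_level311 (dvd_refl _) hg₀)) y'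
    · refine pure_left_inv526 {w} f₁ F₁ h (fun w' => infGL_of_local526 hl w')
        (fun v hv => ?_) (fun v hv y' => ?_) y
      · rw [finGL_of_local526 hl (fun e => hv (by rw [e]; exact hww))]
        exact T6.H777.inU_one777 0
      · obtain rfl : v = w := Finset.mem_singleton.1 hv
        exact iwFn_left526 (hiwG h hI) y'
  have hzc : ∀ g : G K, z ^ k * g = g * z ^ k := fun g =>
    ((show Commute z g from H311.central_scalar311 hz g).zpow_left k).eq
  have hinv : H311.IsLInv311 w.asIdeal w (regL w z H k j (pure305 {w} f₁ F₁)) :=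
    (hinv0.iterate (dvd_refl _) hH j).ltr_central hzc
  have hreg := regL_pure_of526 hww f₁ F₁ (ψ := iwFn893) rfl (fun h hh => (hH.2.1 h hh).1)
    hz.1 k j
  rw [hreg] at hinv
  have hev : ∀ x' : GL (Fin 2) (w.adicCompletion K),
      pure305 {w} (Function.update f₁ w (regLoc51 w z H k j iwFn893)) F₁ (locFin129 w x')
        = regLoc51 w z H k j iwFn893 x' := by
    intro x'
    have hout : OutT305 {w} (locFin129 w x') := by
      rw [H756.outT_iff756]
      intro v hv
      have hne : v ≠ w := fun e => hv (by rw [e]; exact hww)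
      rw [H756.finGL_locFin_ne756 hne]
      exact T6.H777.inU_one777 0
    show (if OutT305 {w} (locFin129 w x') then
        (∏ v ∈ ({w} : Finset (HeightOneSpectrum (𝓞 K))),
          Function.update f₁ w (regLoc51 w z H k j iwFn893) v (finGL305 v (locFin129 w x')))
          * ∏ w' : InfinitePlace K, F₁ w' (infGL305 w' (locFin129 w x')) else 0) = _
    rw [if_pos hout, Finset.prod_singleton, Function.update_self, H756.finGL_locFin_same756,
      Finset.prod_const_one, mul_one]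
  rw [← hev (u₀ * x), ← hev x, map_mul]
  refine hinv.iw (locFin129 w u₀) (isLocalAtFin_locFin129 w u₀) ?_ _
  rw [H340.inIwahori_iff340, finCompHom129_locFin129]
  exact hu₀

/-! ## 5. Test functions without the left invariance -/

/-- Everything in `IsTestFn 𝔫 trivType` except the left invariance under the level group. -/
structure IsPreT526 (𝔫 : Ideal (𝓞 K)) (φ : G K → ℂ) : Prop where
  cont : Continuous φ
  supp : HasCompactSupport φ
  smooth : T5.IsSmoothAtInf φ
  level_right : ∀ u : G K, InLevelGroup 𝔫 u → ∀ g : G K, φ (g * u) = φ g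
  arch_right : ∀ (w : InfinitePlace K) (k : G K), IsArchCompact w k →
    ∀ g : G K, φ (g * k) = φ g
  arch_left : ∀ (w : InfinitePlace K) (k : G K), IsArchCompact w k →
    ∀ g : G K, φ (k * g) = φ g

variable {𝔫 : Ideal (𝓞 K)}

theorem isPreT_of_test526 {φ : G K → ℂ} (h : T5.IsTestFn 𝔫 T5.trivType φ) : IsPreT526 𝔫 φ where
  cont := h.cont
  supp := h.supp
  smooth := h.smooth
  level_right := h.inv.level_right
  arch_right := fun w k hk g => by
    have := h.inv.arch_right w k hk g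
    simpa [T5.trivType] using this
  arch_left := fun w k hk g => by
    have := h.inv.arch_left w k hk g
    simpa [T5.trivType] using this

theorem IsPreT526.to_test {φ : G K → ℂ} (h : IsPreT526 𝔫 φ)
    (hl : ∀ u : G K, InLevelGroup 𝔫 u → ∀ g : G K, φ (u * g) = φ g) :
    T5.IsTestFn 𝔫 T5.trivType φ := by
  refine ⟨T5.isKType_triv, h.cont, h.supp, h.smooth, ⟨h.level_right, hl, ?_, ?_⟩⟩
  · intro u k' hk' g
    rw [h.arch_right u k' hk' g]
    simp [T5.trivType]
  · intro u k' hk' g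
    rw [h.arch_left u k' hk' g]
    simp [T5.trivType]

theorem IsPreT526.ltr {φ : G K → ℂ} (h : IsPreT526 𝔫 φ) {b : G K}
    (hb : ∀ w : InfinitePlace K, TrivAtInf w b) : IsPreT526 𝔫 (H893.ltr b φ) where
  cont := h.cont.comp (continuous_const_mul b⁻¹)
  supp := h.supp.comp_homeomorph (Homeomorph.mulLeft b⁻¹)
  smooth := fun n fam h1 h2 g => by
    have := h.smooth n fam h1 h2 (b⁻¹ * g)
    simpa only [H893.ltr, mul_assoc] using this
  level_right := fun u hu g => by
    show φ (b⁻¹ * (g * u)) = φ (b⁻¹ * g)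
    rw [← mul_assoc]
    exact h.level_right u hu _
  arch_right := fun w k hk g => by
    show φ (b⁻¹ * (g * k)) = φ (b⁻¹ * g)
    rw [← mul_assoc]
    exact h.arch_right w k hk _
  arch_left := fun w k hk g => by
    show φ (b⁻¹ * (k * g)) = φ (b⁻¹ * g)
    have hc : b⁻¹ * k = k * b⁻¹ :=
      H311.commute_fin_inf311 (H311.trivAtInf_inv311 hb) hk.1.2
    rw [← mul_assoc, hc, mul_assoc]
    exact h.arch_left w k hk _

theorem IsPreT526.add {φ₁ φ₂ : G K → ℂ} (h₁ : IsPreT526 𝔫 φ₁) (h₂ : IsPreT526 𝔫 φ₂) :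
    IsPreT526 𝔫 (fun y => φ₁ y + φ₂ y) where
  cont := h₁.cont.add h₂.cont
  supp := h₁.supp.add h₂.supp
  smooth := fun n fam a1 a2 g => (h₁.smooth n fam a1 a2 g).add (h₂.smooth n fam a1 a2 g)
  level_right := fun u hu g => by
    show φ₁ (g * u) + φ₂ (g * u) = φ₁ g + φ₂ g
    rw [h₁.level_right u hu, h₂.level_right u hu]
  arch_right := fun w k hk g => by
    show φ₁ (g * k) + φ₂ (g * k) = φ₁ g + φ₂ g
    rw [h₁.arch_right w k hk, h₂.arch_right w k hk]
  arch_left := fun w k hk g => by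
    show φ₁ (k * g) + φ₂ (k * g) = φ₁ g + φ₂ g
    rw [h₁.arch_left w k hk, h₂.arch_left w k hk]

theorem IsPreT526.smul (c : ℂ) {φ : G K → ℂ} (h : IsPreT526 𝔫 φ) :
    IsPreT526 𝔫 (fun y => c * φ y) where
  cont := continuous_const.mul h.cont
  supp := h.supp.mul_left
  smooth := fun n fam a1 a2 g => contDiff_const.mul (h.smooth n fam a1 a2 g)
  level_right := fun u hu g => by
    show c * φ (g * u) = c * φ g
    rw [h.level_right u hu]
  arch_right := fun w k hk g => by
    show c * φ (g * k) = c * φ g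
    rw [h.arch_right w k hk]
  arch_left := fun w k hk g => by
    show c * φ (k * g) = c * φ g
    rw [h.arch_left w k hk]

theorem isPreT_zero526 : IsPreT526 𝔫 (fun _ : G K => (0 : ℂ)) where
  cont := continuous_const
  supp := HasCompactSupport.zero
  smooth := fun n fam a1 a2 g => contDiff_const
  level_right := fun u hu g => rfl
  arch_right := fun w k hk g => rfl
  arch_left := fun w k hk g => rfl

theorem isPreT_sum526 {ι : Type} (s : Finset ι) (f : ι → G K → ℂ)
    (h : ∀ i ∈ s, IsPreT526 𝔫 (f i)) : IsPreT526 𝔫 (fun y => ∑ i ∈ s, f i y) := by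
  classical
  induction s using Finset.induction_on with
  | empty =>
    simp only [Finset.sum_empty]
    exact isPreT_zero526
  | insert a s ha ih =>
    have h1 : (fun y => ∑ i ∈ insert a s, f i y) = fun y => f a y + ∑ i ∈ s, f i y := by
      funext y
      rw [Finset.sum_insert ha]
    rw [h1]
    exact (h a (Finset.mem_insert_self a s)).add
      (ih fun i hi => h i (Finset.mem_insert_of_mem hi))

theorem IsPreT526.lsum {φ : G K → ℂ} (hφ : IsPreT526 𝔫 φ) {H : Finset (G K)}
    (hH : ∀ h ∈ H, ∀ w : InfinitePlace K, TrivAtInf w h) : IsPreT526 𝔫 (H893.lsum H φ) :=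
  isPreT_sum526 H (fun h => H893.ltr h φ) fun h hh => hφ.ltr (hH h hh)

theorem IsPreT526.iwL {φ : G K → ℂ} (hφ : IsPreT526 𝔫 φ) (w : HeightOneSpectrum (𝓞 K))
    {H : Finset (G K)} (hH : ∀ h ∈ H, ∀ w : InfinitePlace K, TrivAtInf w h) :
    IsPreT526 𝔫 (H893.iwL w H φ) :=
  IsPreT526.smul _ (hφ.lsum hH)

theorem IsPreT526.iterate {φ : G K → ℂ} (hφ : IsPreT526 𝔫 φ) (w : HeightOneSpectrum (𝓞 K))
    {H : Finset (G K)} (hH : ∀ h ∈ H, ∀ w : InfinitePlace K, TrivAtInf w h) (m : ℕ) :
    IsPreT526 𝔫 ((H893.iwL w H)^[m] φ) := by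
  induction m with
  | zero => exact hφ
  | succ n ih =>
    rw [Function.iterate_succ_apply']
    exact ih.iwL w hH

theorem IsPreT526.regL {φ : G K → ℂ} (hφ : IsPreT526 𝔫 φ) (w : HeightOneSpectrum (𝓞 K))
    {H : Finset (G K)} (hH : ∀ h ∈ H, ∀ w : InfinitePlace K, TrivAtInf w h) {z : G K}
    (hz : ∀ w : InfinitePlace K, TrivAtInf w z) (k : ℤ) (m : ℕ) :
    IsPreT526 𝔫 (H893.regL w z H k m φ) :=
  (hφ.iterate w hH m).ltr (H311.trivAtInf_zpow311 hz k)

/-! ## 6. Families with an average -/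

section Fam

variable {Ω : Type} [TopologicalSpace Ω] [MeasurableSpace Ω]

/-- A jointly continuous family of functions with one compact support and its average. -/
structure IsFam526 (ν : Measure Ω) (P : Ω → G K → ℂ) (φ : G K → ℂ) : Prop where
  cont : Continuous (fun p : Ω × G K => P p.1 p.2)
  supp : ∃ C : Set (G K), IsCompact C ∧ ∀ (a : Ω) (h : G K), P a h ≠ 0 → h ∈ C
  int : ∀ h : G K, φ h = ∫ a, P a h ∂ν

variable {ν : Measure Ω} [CompactSpace Ω] [BorelSpace Ω] [IsFiniteMeasure ν]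

theorem IsFam526.integrable {P : Ω → G K → ℂ} {φ : G K → ℂ} (h : IsFam526 ν P φ) (y : G K) :
    Integrable (fun a => P a y) ν := by
  have hc : Continuous (fun a => P a y) :=
    h.cont.comp (continuous_id.prodMk continuous_const)
  exact hc.integrable_of_hasCompactSupport (HasCompactSupport.of_compactSpace _)

theorem IsFam526.ltr {P : Ω → G K → ℂ} {φ : G K → ℂ} (h : IsFam526 ν P φ) (b : G K) :
    IsFam526 ν (fun a => H893.ltr b (P a)) (H893.ltr b φ) where
  cont := h.cont.comp (continuous_fst.prodMk ((continuous_const_mul b⁻¹).comp continuous_snd))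
  supp := by
    obtain ⟨C, hC, hsupp⟩ := h.supp
    refine ⟨(fun y => b * y) '' C, hC.image (continuous_const_mul b), fun a y hy => ?_⟩
    exact ⟨b⁻¹ * y, hsupp a _ hy, mul_inv_cancel_left b y⟩
  int := fun y => h.int (b⁻¹ * y)

theorem IsFam526.add {P₁ P₂ : Ω → G K → ℂ} {φ₁ φ₂ : G K → ℂ} (h₁ : IsFam526 ν P₁ φ₁)
    (h₂ : IsFam526 ν P₂ φ₂) :
    IsFam526 ν (fun a y => P₁ a y + P₂ a y) (fun y => φ₁ y + φ₂ y) where
  cont := h₁.cont.add h₂.cont
  supp := by
    obtain ⟨C₁, hC₁, hs₁⟩ := h₁.supp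
    obtain ⟨C₂, hC₂, hs₂⟩ := h₂.supp
    refine ⟨C₁ ∪ C₂, hC₁.union hC₂, fun a y hy => ?_⟩
    by_cases h1 : P₁ a y = 0
    · refine Or.inr (hs₂ a y fun h2 => hy ?_)
      show P₁ a y + P₂ a y = 0
      rw [h1, h2, add_zero]
    · exact Or.inl (hs₁ a y h1)
  int := fun y => by
    show φ₁ y + φ₂ y = ∫ a, P₁ a y + P₂ a y ∂ν
    rw [integral_add (h₁.integrable y) (h₂.integrable y), h₁.int y, h₂.int y]

theorem IsFam526.smul (c : ℂ) {P : Ω → G K → ℂ} {φ : G K → ℂ} (h : IsFam526 ν P φ) :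
    IsFam526 ν (fun a y => c * P a y) (fun y => c * φ y) where
  cont := continuous_const.mul h.cont
  supp := by
    obtain ⟨C, hC, hs⟩ := h.supp
    refine ⟨C, hC, fun a y hy => hs a y fun h0 => hy ?_⟩
    show c * P a y = 0
    rw [h0, mul_zero]
  int := fun y => by
    show c * φ y = ∫ a, c * P a y ∂ν
    rw [integral_const_mul, h.int y]

theorem isFam_zero526 : IsFam526 ν (fun (_ : Ω) (_ : G K) => (0 : ℂ)) (fun _ => 0) where
  cont := continuous_const
  supp := ⟨∅, isCompact_empty, fun a y hy => absurd rfl hy⟩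
  int := fun y => by simp

theorem isFam_sum526 {ι : Type} (s : Finset ι) (P : ι → Ω → G K → ℂ) (φ : ι → G K → ℂ)
    (h : ∀ i ∈ s, IsFam526 ν (P i) (φ i)) :
    IsFam526 ν (fun a y => ∑ i ∈ s, P i a y) (fun y => ∑ i ∈ s, φ i y) := by
  classical
  induction s using Finset.induction_on with
  | empty =>
    simp only [Finset.sum_empty]
    exact isFam_zero526
  | insert i₀ s ha ih =>
    have h1 : (fun (a : Ω) (y : G K) => ∑ i ∈ insert i₀ s, P i a y)
        = fun a y => P i₀ a y + ∑ i ∈ s, P i a y := by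
      funext a y
      rw [Finset.sum_insert ha]
    have h2 : (fun y : G K => ∑ i ∈ insert i₀ s, φ i y) = fun y => φ i₀ y + ∑ i ∈ s, φ i y := by
      funext y
      rw [Finset.sum_insert ha]
    rw [h1, h2]
    exact (h i₀ (Finset.mem_insert_self i₀ s)).add
      (ih fun i hi => h i (Finset.mem_insert_of_mem hi))

theorem IsFam526.lsum {P : Ω → G K → ℂ} {φ : G K → ℂ} (h : IsFam526 ν P φ)
    (H : Finset (G K)) : IsFam526 ν (fun a => H893.lsum H (P a)) (H893.lsum H φ) :=
  isFam_sum526 H (fun b a => H893.ltr b (P a)) (fun b => H893.ltr b φ) fun b _ => h.ltr b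

theorem IsFam526.iwL {P : Ω → G K → ℂ} {φ : G K → ℂ} (h : IsFam526 ν P φ)
    (w : HeightOneSpectrum (𝓞 K)) (H : Finset (G K)) :
    IsFam526 ν (fun a => H893.iwL w H (P a)) (H893.iwL w H φ) :=
  IsFam526.smul _ (h.lsum H)

theorem IsFam526.iterate {P : Ω → G K → ℂ} {φ : G K → ℂ} (h : IsFam526 ν P φ)
    (w : HeightOneSpectrum (𝓞 K)) (H : Finset (G K)) (m : ℕ) :
    IsFam526 ν (fun a => (H893.iwL w H)^[m] (P a)) ((H893.iwL w H)^[m] φ) := by
  induction m with
  | zero => exact h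
  | succ n ih =>
    have e : (fun a => (H893.iwL w H)^[n + 1] (P a))
        = fun a => H893.iwL w H ((H893.iwL w H)^[n] (P a)) := by
      funext a
      rw [Function.iterate_succ_apply']
    rw [e, Function.iterate_succ_apply']
    exact ih.iwL w H

theorem IsFam526.regL {P : Ω → G K → ℂ} {φ : G K → ℂ} (h : IsFam526 ν P φ)
    (w : HeightOneSpectrum (𝓞 K)) (z : G K) (H : Finset (G K)) (k : ℤ) (m : ℕ) :
    IsFam526 ν (fun a => H893.regL w z H k m (P a)) (H893.regL w z H k m φ) :=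
  (h.iterate w H m).ltr (z ^ k)

end Fam

/-! ## 7. Linearity of the regular member -/

theorem iwL_smul526 (w : HeightOneSpectrum (𝓞 K)) (H : Finset (G K)) (c : ℂ) (φ : G K → ℂ) :
    H893.iwL w H (fun y => c * φ y) = fun y => c * H893.iwL w H φ y := by
  funext y
  show _ * ∑ h ∈ H, c * φ (h⁻¹ * y) = c * (_ * ∑ h ∈ H, φ (h⁻¹ * y))
  rw [← Finset.mul_sum]
  ring

theorem iwL_iter_smul526 (w : HeightOneSpectrum (𝓞 K)) (H : Finset (G K)) (c : ℂ)
    (φ : G K → ℂ) (m : ℕ) :
    (H893.iwL w H)^[m] (fun y => c * φ y) = fun y => c * (H893.iwL w H)^[m] φ y := by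
  induction m with
  | zero => rfl
  | succ n ih =>
    rw [Function.iterate_succ_apply', ih, iwL_smul526]
    funext y
    rw [Function.iterate_succ_apply']

theorem regL_smul526 (w : HeightOneSpectrum (𝓞 K)) (z : G K) (H : Finset (G K)) (k : ℤ)
    (m : ℕ) (c : ℂ) (φ : G K → ℂ) :
    H893.regL w z H k m (fun y => c * φ y) = fun y => c * H893.regL w z H k m φ y := by
  show H893.ltr (z ^ k) ((H893.iwL w H)^[m] (fun y => c * φ y)) = _
  rw [iwL_iter_smul526]
  rfl

end Fermat.Agent.LT.T7.H526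

end
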