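import Mathlib
import Fermat.Agent.LT.T7.H526.OpAvgTools

/-!
# Row LT, tower T7, node T7.L2.1.H2b.G1 `OpAvgC51` (helper526, registry row 2881)

OFF-MAIN.  Complete proof, nothing assumed.  ADDITIVE (all names end in `526`).

    opAvgC526 (K K') : P51.OpAvgC51 K K'     VERBATIM, UNCONDITIONAL

Spec: `T7/P51/GlobProdSpec.lean` (helper51), byte-identical copy.

Proof.  Same parameter space, same measure, same sets of places, same components at infinity.
Downstairs the component at `u` is replaced by `regLoc51 u z H k j 1_I` (`regL_pure_of526`: the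
elements of the coset system and the scalar uniformiser are supported at `u`).  Upstairs the
component at `o 0` is replaced by `regLoc51 (o 0) z' H' k j 1_I`, then the unit components at
the bad places `S₀` (the places of `S'` which are not over `u`) by the double coset functions
of `g` (`H756.lsumDblC756`, PT.5 of helper563; the other components are left invariant under
the local groups of the base level: Iwahori functions along the orbit, the regular Iwahori
function at `o 0` (`regLoc_left_inv526`), spherical functions outside the level).  The members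
are test functions: left translates by elements which are trivial at infinity
(`IsPreT526`), and the pure tensors are left invariant under the level groups
(`pure_left_inv526`).  Joint continuity, the compact supports and the integral formulas:
finite sums of left translates (`IsFam526`).
-/

set_option autoImplicit false
set_option linter.unusedSectionVars false
set_option linter.unusedVariables false

open IsDedekindDomain NumberField MeasureTheory

noncomputable section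

namespace Fermat.Agent.LT.T7.H526

open Fermat.Agent.LT.H556 Fermat.Agent.LT.H556.A0 Fermat.Agent.LT.T7
open Fermat.Agent.LT.T7.H305 Fermat.Agent.LT.T7.H893 Fermat.Agent.LT.T7.P51 Fermat.Agent.LT.H129
open Fermat.Agent.LT

attribute [local instance] Fermat.Agent.LT.T5.instMeasurableSpaceG

variable {K K' : Type} [Field K] [NumberField K] [Field K'] [NumberField K'] [Algebra K K']

/-! ## 1. Places and levels -/

/-- A place over a place which divides `𝔫` divides `𝔫 𝒪_{K'}`. -/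
theorem dvd_upI_of_over526 {𝔫 : Ideal (𝓞 K)} {v : HeightOneSpectrum (𝓞 K)}
    {w : HeightOneSpectrum (𝓞 K')} (h : PlaceOver K K' v w) (hv : v.asIdeal ∣ 𝔫) :
    w.asIdeal ∣ upI (K' := K') 𝔫 := by
  rw [Ideal.dvd_iff_le]
  show Ideal.map (algebraMap (𝓞 K) (𝓞 K')) 𝔫 ≤ w.asIdeal
  rw [Ideal.map_le_iff_le_comap]
  intro x hx
  rw [Ideal.mem_comap]
  exact (h x (algebraMap (𝓞 K) (𝓞 K') x) rfl).1 (Ideal.le_of_dvd hv hx)

/-- The place under a place which divides `𝔫 𝒪_{K'}` divides `𝔫`. -/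
theorem dvd_of_over_upI526 {𝔫 : Ideal (𝓞 K)} {v : HeightOneSpectrum (𝓞 K)}
    {w : HeightOneSpectrum (𝓞 K')} (h : PlaceOver K K' v w)
    (hw : w.asIdeal ∣ upI (K' := K') 𝔫) : v.asIdeal ∣ 𝔫 := by
  rw [Ideal.dvd_iff_le]
  intro x hx
  have hx' : algebraMap (𝓞 K) (𝓞 K') x ∈ w.asIdeal :=
    Ideal.le_of_dvd hw (Ideal.mem_map_of_mem (algebraMap (𝓞 K) (𝓞 K')) hx)
  exact (h x (algebraMap (𝓞 K) (𝓞 K') x) rfl).2 hx'

theorem upI_ne_bot526 {𝔫 : Ideal (𝓞 K)} (h : 𝔫 ≠ ⊥) : upI (K' := K') 𝔫 ≠ ⊥ := by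
  intro h0
  apply h
  exact (Ideal.map_eq_bot_iff_of_injective
    (NumberField.RingOfIntegers.algebraMap.injective K K')).1 h0

/-- The members of a double coset system of an element which is trivial at infinity are trivial
at infinity. -/
theorem trivAtInf_of_dbl526 {F : Type} [Field F] [NumberField F] {𝔑 : Ideal (𝓞 F)} {g : G F}
    {Hg : Finset (G F)} (hsys : IsDblCosetSystem 𝔑 g Hg)
    (hg : ∀ w : InfinitePlace F, TrivAtInf w g) :
    ∀ h ∈ Hg, ∀ w : InfinitePlace F, TrivAtInf w h := by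
  intro h hh w
  obtain ⟨u₁, u₂, hu₁, hu₂, rfl⟩ := hsys.1 h hh
  rw [H756.trivAtInf_iff_infGL756, map_mul, map_mul,
    (H756.trivAtInf_iff_infGL756 w u₁).1 (hu₁.1 w),
    (H756.trivAtInf_iff_infGL756 w u₂).1 (hu₂.1 w),
    (H756.trivAtInf_iff_infGL756 w g).1 (hg w), one_mul, one_mul]

/-! ## 2. The node -/

/-- **NODE T7.L2.1.H2b.G1 `OpAvgC51`.** -/
theorem opAvgC526 (K K' : Type) [Field K] [NumberField K] [Field K'] [NumberField K']
    [Algebra K K'] : P51.OpAvgC51 K K' := by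
  classical
  intro ℓ Φ B g 𝔫 μc T₀ n n₀ m hctx c₀ hc₀ E hE hOp hA k j
  subst hE
  obtain ⟨Ω, tΩ, cΩ, t2Ω, scΩ, mΩ, bΩ, ν, fν, T, T', φ₀, Φ', f₀, F, h1, h2, h3, h4, h5, h6, h7,
    h8, h9⟩ := hA
  have hbase := hctx.base
  have hu_T₀ : B.u ∈ T₀ := (hctx.mem_T₀ B.u).2 hOp.u_level
  have ho0_dvd : (B.o 0).asIdeal ∣ B.𝔑₀ := (hbase.mem_S' _).1 (hbase.orbit_level 0)
  have h𝔑₀ : B.𝔑₀ ≠ ⊥ := by
    intro h0
    have hle := hOp.level_g
    rw [h0, le_bot_iff] at hle
    exact upI_ne_bot526 hOp.level_ne hle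
  -- the bad places
  let S₀ : Finset (HeightOneSpectrum (𝓞 K')) :=
    B.S'.filter (fun w => ¬ PlaceOver K K' B.u w)
  have hS₀ : ∀ w : HeightOneSpectrum (𝓞 K'), w ∈ S₀ ↔ w ∈ B.S' ∧ ¬ PlaceOver K K' B.u w :=
    fun w => Finset.mem_filter
  have hP1 : ∀ v ∈ T₀, v ≠ B.u → ∀ w : HeightOneSpectrum (𝓞 K'), PlaceOver K K' v w →
      w ∈ S₀ := by
    intro v hv hvu w hw
    refine (hS₀ w).2 ⟨(hOp.mem_S'_g w).2 (dvd_upI_of_over526 hw ((hctx.mem_T₀ v).1 hv)),
      fun huw => hvu (H557.placeOver_unique_557 hw huw)⟩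
  have hP2 : ∀ w ∈ S₀, ∃ v ∈ T₀, v ≠ B.u ∧ PlaceOver K K' v w := by
    intro w hw
    obtain ⟨hwS, hwu⟩ := (hS₀ w).1 hw
    have hov : PlaceOver K K' (w.under (𝓞 K)) w := H29.placeOver_under w
    refine ⟨w.under (𝓞 K), (hctx.mem_T₀ _).2 (dvd_of_over_upI526 hov ((hOp.mem_S'_g w).1 hwS)),
      fun e => hwu (e ▸ hov), hov⟩
  have hP3 : B.o 0 ∉ S₀ := fun h => ((hS₀ _).1 h).2 (hbase.orbit_over 0)
  -- the new components
  let ρ' : GL (Fin 2) ((B.o 0).adicCompletion K') → ℂ :=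
    regLoc51 (B.o 0) E.z' E.H' k j iwFn893
  let ρ : GL (Fin 2) (B.u.adicCompletion K) → ℂ := regLoc51 B.u E.z E.H k j iwFn893
  let φ₁ : Ω → ∀ w : HeightOneSpectrum (𝓞 K'), GL (Fin 2) (w.adicCompletion K') → ℂ :=
    fun a => Function.update (φ₀ a) (B.o 0) ρ'
  let φ₀' : Ω → ∀ w : HeightOneSpectrum (𝓞 K'), GL (Fin 2) (w.adicCompletion K') → ℂ :=
    fun a w => if w ∈ S₀ then dblFn893 (n₀ w) (finGL305 w g) else φ₁ a w
  let f₀' : Ω → ∀ v : HeightOneSpectrum (𝓞 K), GL (Fin 2) (v.adicCompletion K) → ℂ :=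
    fun a => Function.update (f₀ a) B.u ρ
  have hφ₀'_pos : ∀ (a : Ω) (w : HeightOneSpectrum (𝓞 K')), w ∈ S₀ →
      φ₀' a w = dblFn893 (n₀ w) (finGL305 w g) := fun a w h => if_pos h
  have hφ₀'_neg : ∀ (a : Ω) (w : HeightOneSpectrum (𝓞 K')), w ∉ S₀ → φ₀' a w = φ₁ a w :=
    fun a w h => if_neg h
  have hφ₁_0 : ∀ a : Ω, φ₁ a (B.o 0) = ρ' := fun a => Function.update_self _ _ _
  have hφ₁_ne : ∀ (a : Ω) (w : HeightOneSpectrum (𝓞 K')), w ≠ B.o 0 → φ₁ a w = φ₀ a w :=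
    fun a w h => Function.update_of_ne h _ _
  have hf₀'_u : ∀ a : Ω, f₀' a B.u = ρ := fun a => Function.update_self _ _ _
  have hf₀'_ne : ∀ (a : Ω) (v : HeightOneSpectrum (𝓞 K)), v ≠ B.u → f₀' a v = f₀ a v :=
    fun a v h => Function.update_of_ne h _ _
  -- the coset systems are trivial at infinity
  have hH'inf : ∀ h ∈ E.H', ∀ w : InfinitePlace K', TrivAtInf w h :=
    fun h hh => (hOp.sys'.2.1 h hh).1.1
  have hHinf : ∀ h ∈ E.H, ∀ w : InfinitePlace K, TrivAtInf w h :=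
    fun h hh => (hOp.sys.2.1 h hh).1.1
  have hHginf : ∀ h ∈ E.Hg, ∀ w : InfinitePlace K', TrivAtInf w h :=
    trivAtInf_of_dbl526 hOp.sysg hctx.bad.1
  -- the left invariance of the components upstairs outside the bad places
  have hinvU : ∀ (a : Ω), ∀ v ∈ T' a, v ∉ S₀ →
      ∀ u x : GL (Fin 2) (v.adicCompletion K'), T6.InU (n₀ v) u →
        φ₁ a v (u * x) = φ₁ a v x := by
    intro a v hvT hvS u x hu
    obtain ⟨hT₀T, hover, hLH, hunit, hfu, hφu, hsph, harch⟩ := h1 a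
    obtain ⟨v₀, hv₀T, hv₀v⟩ := (hover v).1 hvT
    by_cases hv0 : v = B.o 0
    · subst hv0
      rw [hφ₁_0 a]
      exact regLoc_left_inv526 hOp.sys' hOp.unif' k j
        (inIw_of_inU526 hctx.lev_n₀ ho0_dvd hu) x
    · rw [hφ₁_ne a v hv0]
      by_cases hv₀ : v₀ ∈ T₀
      · have hvS' : v ∈ B.S' :=
          (hOp.mem_S'_g v).2 (dvd_upI_of_over526 hv₀v ((hctx.mem_T₀ v₀).1 hv₀))
        have hvu : PlaceOver K K' B.u v := by
          by_contra hcon
          exact hvS ((hS₀ v).2 ⟨hvS', hcon⟩)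
        rw [hφu v hvu]
        exact iwFn_left526 (inIw_of_inU526 hctx.lev_n₀ ((hbase.mem_S' v).1 hvS') hu) x
      · obtain ⟨A, Av, -, hA, -, -⟩ := hsph v₀ hv₀T hv₀
        exact sph_left526 (hA v hv₀v) (H756.inU_zero_of_inU756 hu) x
  -- the operated pure tensors
  have hU : ∀ a : Ω, lsum E.Hg (regL (B.o 0) E.z' E.H' k j (pure305 (T' a) (φ₀ a) (Φ' a)))
      = pure305 (T' a) (φ₀' a) (Φ' a) := by
    intro a
    obtain ⟨hT₀T, hover, hLH, hunit, hfu, hφu, hsph, harch⟩ := h1 a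
    have ho0T : B.o 0 ∈ T' a := (hover (B.o 0)).2 ⟨B.u, hT₀T hu_T₀, hbase.orbit_over 0⟩
    have hreg := regL_pure_of526 ho0T (φ₀ a) (Φ' a) (ψ := iwFn893)
      (hφu (B.o 0) (hbase.orbit_over 0)) (fun h hh => (hOp.sys'.2.1 h hh).1) hOp.unif'.1 k j
    rw [hreg]
    funext y
    have hgfin : ∀ v : HeightOneSpectrum (𝓞 K'), v ∉ S₀ → TrivAtFin v g := by
      intro v hv
      refine hctx.bad.2 v ?_
      by_cases hvS : v ∈ B.S'
      · right
        have hvu : PlaceOver K K' B.u v := by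
          by_contra hcon
          exact hv ((hS₀ v).2 ⟨hvS, hcon⟩)
        obtain ⟨i, hi, e⟩ := hbase.orbit_all v hvu
        exact ⟨i, hbase.deg ▸ hi, e⟩
      · exact Or.inl hvS
    have hS₀T : S₀ ⊆ T' a := by
      intro w hw
      obtain ⟨v, hv, -, hvw⟩ := hP2 w hw
      exact (hover w).2 ⟨v, hT₀T hv, hvw⟩
    have hunit' : ∀ v ∈ S₀, φ₁ a v = unitFn893 (n₀ v) := by
      intro v hv
      obtain ⟨v₀, hv₀, hne, hv₀v⟩ := hP2 v hv
      rw [hφ₁_ne a v (fun e => hP3 (e ▸ hv))]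
      exact hunit v₀ hv₀ hne v hv₀v
    exact H756.lsumDblC756 K' B.𝔑₀ n₀ h𝔑₀ hctx.lev_n₀ g S₀ hctx.bad.1 hgfin E.Hg hOp.sysg
      (T' a) hS₀T (φ₁ a) (Φ' a) hunit' (hinvU a) y
  have hD : ∀ a : Ω, regL B.u E.z E.H k j (fun h => c₀ * pure305 (T a) (f₀ a) (F a) h)
      = fun h => c₀ * pure305 (T a) (f₀' a) (F a) h := by
    intro a
    obtain ⟨hT₀T, hover, hLH, hunit, hfu, hφu, hsph, harch⟩ := h1 a
    rw [regL_smul526, regL_pure_of526 (hT₀T hu_T₀) (f₀ a) (F a) (ψ := iwFn893) hfu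
      (fun h hh => (hOp.sys.2.1 h hh).1) hOp.unif.1 k j]
  -- the families
  have hfamU : IsFam526 ν (fun a => pure305 (T' a) (φ₀' a) (Φ' a))
      (lsum E.Hg (regL (B.o 0) E.z' E.H' k j E.φ₂)) := by
    have hfam : IsFam526 ν (fun a => pure305 (T' a) (φ₀ a) (Φ' a)) E.φ₂ := ⟨h4, h6, h8⟩
    have hfam' := (hfam.regL (B.o 0) E.z' E.H' k j).lsum E.Hg
    have e : (fun a => lsum E.Hg (regL (B.o 0) E.z' E.H' k j (pure305 (T' a) (φ₀ a) (Φ' a))))
        = fun a => pure305 (T' a) (φ₀' a) (Φ' a) := funext hU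
    rwa [e] at hfam'
  have hfamD : IsFam526 ν (fun a h => c₀ * pure305 (T a) (f₀' a) (F a) h)
      (regL B.u E.z E.H k j E.f₂) := by
    obtain ⟨C, hC, hC'⟩ := h7
    have hfam : IsFam526 ν (fun a h => c₀ * pure305 (T a) (f₀ a) (F a) h) E.f₂ :=
      ⟨h5, ⟨C, hC, fun a h hne => hC' a h (right_ne_zero_of_mul hne)⟩, h9⟩
    have hfam' := hfam.regL B.u E.z E.H k j
    have e : (fun a => regL B.u E.z E.H k j (fun h => c₀ * pure305 (T a) (f₀ a) (F a) h))
        = fun a h => c₀ * pure305 (T a) (f₀' a) (F a) h := funext hD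
    rwa [e] at hfam'
  refine ⟨Ω, tΩ, cΩ, t2Ω, scΩ, mΩ, bΩ, ν, fν, T, T', φ₀', Φ', f₀', F, ?_, ?_, ?_,
    hfamU.cont, hfamD.cont, hfamU.supp, ?_, hfamU.int, hfamD.int⟩
  · -- the local shape
    intro a
    obtain ⟨hT₀T, hover, hLB⟩ := h1 a
    obtain ⟨hLH, hunit, hfu, hφu, hsph, harch⟩ := hLB
    refine ⟨hT₀T, hover, φ₀ a, f₀ a, ⟨hLH, hunit, hfu, hφu, hsph, harch⟩, ?_, hf₀'_u a, ?_, ?_,
      ?_⟩
    · intro v hv hvu
      exact ⟨hf₀'_ne a v hvu, fun w hw => hφ₀'_pos a w (hP1 v hv hvu w hw)⟩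
    · rw [hφ₀'_neg a _ hP3]
      exact hφ₁_0 a
    · intro i hi hil
      have hne : B.o i ≠ B.o 0 := hbase.orbit_ne i hi (hbase.deg ▸ hil)
      have hnS : B.o i ∉ S₀ := fun h => ((hS₀ _).1 h).2 (hbase.orbit_over i)
      rw [hφ₀'_neg a _ hnS, hφ₁_ne a _ hne]
      exact hφu (B.o i) (hbase.orbit_over i)
    · intro v hv hvT₀
      have hvu : v ≠ B.u := fun e => hvT₀ (e ▸ hu_T₀)
      refine ⟨hf₀'_ne a v hvu, fun w hw => ?_⟩
      have hnS : w ∉ S₀ := by
        intro h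
        obtain ⟨v', hv', -, hv'w⟩ := hP2 w h
        exact hvT₀ ((H557.placeOver_unique_557 hw hv'w) ▸ hv')
      have hne : w ≠ B.o 0 := by
        intro e
        apply hvu
        exact H557.placeOver_unique_557 hw (e ▸ hbase.orbit_over 0)
      rw [hφ₀'_neg a w hnS, hφ₁_ne a w hne]
  · -- the members upstairs are test functions
    intro a
    have hpre := ((isPreT_of_test526 (h2 a)).regL (B.o 0) hH'inf hOp.unif'.1.1 k j).lsum hHginf
    rw [hU a] at hpre
    refine hpre.to_test fun x hx y => ?_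
    have hx₀ : InLevelGroup B.𝔑₀ x := inLevelGroup_mono526 hOp.level_g hx
    obtain ⟨hxinf, hxU⟩ := (H756.inLevelGroup_iff_inU756 hctx.lev_n₀ x).1 hx₀
    refine pure_left_inv526 (T' a) (φ₀' a) (Φ' a) x hxinf
      (fun v _ => H756.inU_zero_of_inU756 (hxU v)) (fun v hv y' => ?_) y
    by_cases hvS : v ∈ S₀
    · rw [hφ₀'_pos a v hvS]
      exact dblFn_left526 (n₀ v) _ (hxU v) y'
    · rw [hφ₀'_neg a v hvS]
      exact hinvU a v hv hvS _ y' (hxU v)
  · -- the members downstairs are test functions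
    intro a
    obtain ⟨hT₀T, hover, hLH, hunit, hfu, hφu, hsph, harch⟩ := h1 a
    have hpre := (isPreT_of_test526 (h3 a)).regL B.u hHinf hOp.unif.1.1 k j
    rw [hD a] at hpre
    refine hpre.to_test fun x hx y => ?_
    obtain ⟨hxinf, hxU⟩ := (H756.inLevelGroup_iff_inU756 hctx.lev_m x).1 hx
    show c₀ * pure305 (T a) (f₀' a) (F a) (x * y) = c₀ * pure305 (T a) (f₀' a) (F a) y
    congr 1
    refine pure_left_inv526 (T a) (f₀' a) (F a) x hxinf
      (fun v _ => H756.inU_zero_of_inU756 (hxU v)) (fun v hv y' => ?_) y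
    by_cases hvu : v = B.u
    · subst hvu
      rw [hf₀'_u a]
      exact regLoc_left_inv526 hOp.sys hOp.unif k j
        (inIw_of_inU526 hctx.lev_m hOp.u_level (hxU _)) y'
    · rw [hf₀'_ne a v hvu]
      by_cases hvT₀ : v ∈ T₀
      · have hbi := (hLH.inv_down v (Finset.mem_erase.2 ⟨hvu, hvT₀⟩)).1
        have := hbi (finGL305 v x) 1 y' (hxU v) (T6.H777.inU_one777 _)
        rwa [mul_one] at this
      · obtain ⟨A, Av, hAv, -, -, -⟩ := hsph v hv hvT₀
        exact sph_left526 hAv (H756.inU_zero_of_inU756 (hxU v)) y'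
  · -- the compact support downstairs
    obtain ⟨C, hC, hs⟩ := hfamD.supp
    exact ⟨C, hC, fun a h hne => hs a h (mul_ne_zero hc₀ hne)⟩

example (K K' : Type) [Field K] [NumberField K] [Field K'] [NumberField K'] [Algebra K K'] :
    P51.OpAvgC51 K K' := opAvgC526 K K'

end Fermat.Agent.LT.T7.H526

end
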